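import Fermat.Agent.S41.Tors.Contract

/-!
# S41 / Tors / Conc / Elt : every element of `E k M` is fixed by a power of the coefficient Frobenius
-/

set_option autoImplicit false
set_option linter.unusedSectionVars false

namespace Fermat.Agent.S41.Tors

open AlgebraicCurve ModularCurve Fermat.Agent.Lib.RR Fermat.Agent.GAL Fermat.Agent.GAL.Igusa
  Fermat.Agent.DR.Conc

variable (k : Type) [Field k] (M : ℕ) (r : ℕ) [NeZero r] [Fact r.Prime] [CharP k r] [PerfectRing k r]

/-- the coefficients of `Fr ^ m • x`. -/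
theorem coeff_Fr_pow_smul (m : ℕ) (x : E k M) (n : ℤ) :
    ((Fr k M r ^ m • x : E k M) : LaurentSeries k).coeff n = ((x : LaurentSeries k).coeff n) ^ (r ^ m) := by
  induction m generalizing x with
  | zero => simp
  | succ m ih =>
    rw [pow_succ, mul_smul, ih, Fr_smul, coe_FrE, coeffMap_coeff, frobenius_def, ← pow_mul, pow_succ,
      mul_comm]

/-- the series all of whose coefficients are fixed by `a ↦ a ^ (r ^ m)` for one `m > 0`. -/
theorem exists_pow_Fr_smul_aux (hk : ∀ a : k, ∃ n : ℕ, 0 < n ∧ a ^ (r ^ n) = a)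
    {x : LaurentSeries k} (hx : x ∈ modularFunctionFieldFullC k M) :
    ∃ m : ℕ, 0 < m ∧ (coeffMap (frobenius k r))^[m] x = x := by
  unfold modularFunctionFieldFullC at hx
  induction hx using IntermediateField.adjoin_induction with
  | mem y hy =>
    obtain ⟨d, hd0, hd, rfl⟩ := hy
    refine ⟨1, one_pos, ?_⟩
    rw [Function.iterate_one, coeffMap_qExpand, coeffMap_jqModC]
  | algebraMap a =>
    obtain ⟨n, hn, han⟩ := hk a
    refine ⟨n, hn, ?_⟩
    have key : ∀ (j : ℕ) (b : k), (coeffMap (frobenius k r))^[j] (algebraMap k (LaurentSeries k) b) =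
        algebraMap k (LaurentSeries k) (b ^ (r ^ j)) := by
      intro j
      induction j with
      | zero => intro b; simp
      | succ j ih =>
        intro b
        rw [Function.iterate_succ_apply, coeffMap_algebraMap, ih, frobenius_def, ← pow_mul, pow_succ,
          mul_comm]
    rw [key, han]
  | add x y _ _ hx hy =>
    obtain ⟨m₁, h₁, e₁⟩ := hx
    obtain ⟨m₂, h₂, e₂⟩ := hy
    refine ⟨m₁ * m₂, Nat.mul_pos h₁ h₂, ?_⟩
    rw [iterate_map_add]
    congr 1
    · rw [Function.iterate_mul]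
      exact Function.iterate_fixed e₁ m₂
    · rw [mul_comm, Function.iterate_mul]
      exact Function.iterate_fixed e₂ m₁
  | inv x _ hx =>
    obtain ⟨m₁, h₁, e₁⟩ := hx
    refine ⟨m₁, h₁, ?_⟩
    have key : ∀ (j : ℕ) (z : LaurentSeries k), (coeffMap (frobenius k r))^[j] z⁻¹ =
        ((coeffMap (frobenius k r))^[j] z)⁻¹ := by
      intro j
      induction j with
      | zero => intro z; rfl
      | succ j ih =>
        intro z
        rw [Function.iterate_succ_apply, Function.iterate_succ_apply, map_inv₀, ih]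
    rw [key, e₁]
  | mul x y _ _ hx hy =>
    obtain ⟨m₁, h₁, e₁⟩ := hx
    obtain ⟨m₂, h₂, e₂⟩ := hy
    refine ⟨m₁ * m₂, Nat.mul_pos h₁ h₂, ?_⟩
    rw [iterate_map_mul]
    congr 1
    · rw [Function.iterate_mul]
      exact Function.iterate_fixed e₁ m₂
    · rw [mul_comm, Function.iterate_mul]
      exact Function.iterate_fixed e₂ m₁

theorem coe_Fr_pow_smul (m : ℕ) (x : E k M) :
    ((Fr k M r ^ m • x : E k M) : LaurentSeries k) =
      (coeffMap (frobenius k r))^[m] (x : LaurentSeries k) := by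
  induction m generalizing x with
  | zero => simp
  | succ m ih =>
    rw [pow_succ, mul_smul, ih, Fr_smul, coe_FrE, Function.iterate_succ_apply]

/-- **(C1)** = hypothesis `H1` of `torsion_abs`. -/
theorem exists_pow_Fr_smul (hk : ∀ a : k, ∃ n : ℕ, 0 < n ∧ a ^ (r ^ n) = a) (x : E k M) :
    ∃ m : ℕ, 0 < m ∧ Fr k M r ^ m • x = x := by
  obtain ⟨m, hm, e⟩ := exists_pow_Fr_smul_aux k M r hk x.2
  exact ⟨m, hm, Subtype.ext (by rw [coe_Fr_pow_smul, e])⟩

end Fermat.Agent.S41.Tors
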