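import Fermat.Agent.S41.Tors.Contract
import Fermat.Agent.DR.Abs.Ev

/-!
# S41 / Tors / Conc / FixPl : a power of the coefficient Frobenius fixes only finitely many places
-/

set_option autoImplicit false
set_option linter.unusedSectionVars false

namespace Fermat.Agent.S41.Tors

open AlgebraicCurve ModularCurve Fermat.Agent.Lib.RR Fermat.Agent.GAL Fermat.Agent.GAL.Igusa
  Fermat.Agent.DR.Conc Fermat.Agent.GAL.RED

variable (k : Type) [Field k] (M : ℕ) [NeZero M] (r : ℕ) [NeZero r] [Fact r.Prime] [CharP k r]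
  [PerfectRing k r]

/-- `Fr ^ m` fixes `j` and raises constants to the power `r ^ m`. -/
theorem Fr_pow_smul_jb (m : ℕ) : Fr k M r ^ m • jb k M = jb k M := by
  induction m with
  | zero => rw [pow_zero, one_smul]
  | succ m ih => rw [pow_succ', mul_smul, ih, Fr_smul, FrE_jb]

theorem Fr_pow_smul_algebraMap (m : ℕ) (a : k) :
    Fr k M r ^ m • algebraMap k (E k M) a = algebraMap k (E k M) (a ^ (r ^ m)) := by
  induction m with
  | zero => rw [pow_zero, one_smul, pow_zero, pow_one]
  | succ m ih =>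
    rw [pow_succ', mul_smul, ih, Fr_smul, FrE_algebraMap, frobeniusEquiv_apply, frobenius_def,
      ← pow_mul, ← pow_succ]

/-- **(C2)** = hypothesis `H2` of `torsion_abs`. -/
theorem finite_fixed_places [IsAlgClosed k] [IsFF k (E k M)] (m : ℕ) (hm : 0 < m) :
    {P : Place k (E k M) | Fr k M r ^ m • P = P}.Finite := by
  have hr : 1 < r := (Fact.out : r.Prime).one_lt
  have hq : 1 < r ^ m := Nat.one_lt_pow hm.ne' hr
  have htr := transcendental_jb k M
  have hj0 : jb k M ≠ 0 := fun h0 => htr (h0 ▸ isAlgebraic_zero)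
  have hy0 : jb k M ^ (r ^ m) - jb k M ≠ 0 := by
    intro h
    apply htr
    refine ⟨Polynomial.X ^ (r ^ m) - Polynomial.X, ?_, by simpa using h⟩
    intro h0
    have h1 := congrArg (fun p => Polynomial.coeff p 1) h0
    simp only [Polynomial.coeff_sub, Polynomial.coeff_X_pow, Polynomial.coeff_X_one,
      Polynomial.coeff_zero] at h1
    rw [if_neg (by omega)] at h1
    simp at h1
  refine Set.Finite.subset
    (divOf (K := k) (jb k M ^ (r ^ m) - jb k M)).support.finite_toSet (fun P hP => ?_)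
  change Fr k M r ^ m • P = P at hP
  rw [Finset.mem_coe, Finsupp.mem_support_iff, divOf_apply]
  by_cases hneg : P.ord (jb k M) < 0
  · have h1 : P.ord (jb k M ^ (r ^ m)) = (r ^ m : ℕ) * P.ord (jb k M) := ord_pow P _ _
    have h2 : P.ord (jb k M ^ (r ^ m)) < P.ord (-jb k M) := by
      rw [GAL.RED.ord_neg, h1]
      have : (2 : ℤ) ≤ ((r ^ m : ℕ) : ℤ) := by exact_mod_cast hq
      nlinarith
    have h3 := ord_add_eq_of_lt P (pow_ne_zero _ hj0) (neg_ne_zero.2 hj0) h2
    rw [sub_eq_add_neg, h3, h1]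
    have : (0 : ℤ) < ((r ^ m : ℕ) : ℤ) := by exact_mod_cast (by omega : 0 < r ^ m)
    exact (mul_neg_of_pos_of_neg this hneg).ne
  · have hnn : 0 ≤ P.ord (jb k M) := not_lt.1 hneg
    set c := DR.Abs.ev P (jb k M) with hc
    have hpos : 0 < P.ord (jb k M - algebraMap k (E k M) c) := by
      rcases DR.Abs.ev_spec P hnn with h | h
      · exact absurd (h ▸ isAlgebraic_algebraMap _) htr
      · exact h
    have h1 := SemilinearAut.ord_smul (Fr k M r ^ m) P (jb k M - algebraMap k (E k M) c)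
    rw [hP, smul_sub, Fr_pow_smul_jb, Fr_pow_smul_algebraMap] at h1
    have h2 : DR.Abs.ev P (jb k M) = c ^ (r ^ m) := by
      refine DR.Abs.ev_eq_of P (Or.inr ?_)
      rw [h1]
      exact hpos
    have hpn : 0 ≤ P.ord (jb k M ^ (r ^ m)) := by
      rw [ord_pow]
      positivity
    have h3 : DR.Abs.ev P (jb k M ^ (r ^ m) - jb k M) = 0 := by
      rw [DR.Abs.ev_sub P hpn hnn, DR.Abs.ev_pow P hnn, ← hc, ← h2, ← hc, sub_self]
    have hyn : 0 ≤ P.ord (jb k M ^ (r ^ m) - jb k M) := by
      rw [sub_eq_add_neg]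
      exact DR.Abs.ord_add_nonneg P hpn (by rwa [GAL.RED.ord_neg])
    rcases (DR.Abs.ev_eq_zero_iff P hyn).1 h3 with h | h
    · exact absurd h hy0
    · exact h.ne'

end Fermat.Agent.S41.Tors
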