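import Fermat.Agent.S41.Tors.Conc.Elt

/-!
# S41 / Tors / Conc / FixVec : a nonzero Frobenius-stable `k`-subspace of `E k M` has a nonzero fixed vector
-/

set_option autoImplicit false
set_option linter.unusedSectionVars false

namespace Fermat.Agent.S41.Tors

open AlgebraicCurve ModularCurve Fermat.Agent.Lib.RR Fermat.Agent.GAL Fermat.Agent.GAL.Igusa
  Fermat.Agent.DR.Conc

/-- telescoping: if `z ^ (Q ^ a) = z` then `∑_{i<a} z ^ (Q ^ (i+1)) = ∑_{i<a} z ^ (Q ^ i)`, and conversely. -/
theorem exists_trace_one_shift {k : Type} [Field k] (Q a : ℕ) (z : k) :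
    ∑ i ∈ Finset.range a, z ^ (Q ^ (i + 1)) + z = ∑ i ∈ Finset.range a, z ^ (Q ^ i) + z ^ (Q ^ a) := by
  have h1 := Finset.sum_range_succ (fun i => z ^ (Q ^ i)) a
  have h2 := Finset.sum_range_succ' (fun i => z ^ (Q ^ i)) a
  rw [h1] at h2
  simp only [pow_zero, pow_one] at h2
  exact h2.symm

/-- (C3a) an element of trace one: `∑_{i<a} u ^ (q ^ i) = 1`, and then automatically `u ^ (q ^ a) = u`. -/
theorem exists_trace_one (k : Type) [Field k] [IsAlgClosed k] (r : ℕ) [Fact r.Prime] [CharP k r]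
    (m a : ℕ) (hm : 0 < m) (ha : 0 < a) :
    ∃ u : k, ∑ i ∈ Finset.range a, u ^ ((r ^ m) ^ i) = 1 ∧ u ^ ((r ^ m) ^ a) = u := by
  classical
  have hr : 1 < r := (Fact.out : r.Prime).one_lt
  have hQ : 1 < r ^ m := Nat.one_lt_pow hm.ne' hr
  set Q := r ^ m with hQdef
  let P : Polynomial k := ∑ i ∈ Finset.range a, (Polynomial.X : Polynomial k) ^ (Q ^ i) - 1
  have hpos : 0 < Q ^ (a - 1) := Nat.pos_of_ne_zero (pow_ne_zero _ (by omega))
  have hcoeff : P.coeff (Q ^ (a - 1)) = 1 := by
    simp only [P, Polynomial.coeff_sub, Polynomial.finsetSum_coeff, Polynomial.coeff_X_pow,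
      Polynomial.coeff_one]
    rw [if_neg hpos.ne', sub_zero, Finset.sum_eq_single (a - 1)]
    · simp
    · intro b _ hb
      rw [if_neg]
      intro h
      exact hb (Nat.pow_right_injective hQ h).symm
    · intro h
      exact absurd (Finset.mem_range.2 (by omega)) h
  have hdeg : P.degree ≠ 0 := by
    intro h
    have h1 := Polynomial.eq_C_of_degree_eq_zero h
    rw [h1, Polynomial.coeff_C, if_neg hpos.ne'] at hcoeff
    exact zero_ne_one hcoeff
  obtain ⟨u, hu⟩ := IsAlgClosed.exists_root P hdeg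
  have hu1 : ∑ i ∈ Finset.range a, u ^ (Q ^ i) = 1 := by
    have : Polynomial.eval u P = ∑ i ∈ Finset.range a, u ^ (Q ^ i) - 1 := by
      simp [P, Polynomial.eval_finsetSum]
    rw [Polynomial.IsRoot.def, this] at hu
    exact sub_eq_zero.1 hu
  refine ⟨u, hu1, ?_⟩
  have h2 : ∑ i ∈ Finset.range a, u ^ (Q ^ (i + 1)) = 1 := by
    have h3 := sum_pow_char_pow (R := k) r m (Finset.range a) (fun i => u ^ (Q ^ i))
    rw [hu1, one_pow] at h3
    rw [h3]
    refine Finset.sum_congr rfl fun i _ => ?_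
    rw [pow_succ, pow_mul]
  have h4 := exists_trace_one_shift Q a u
  rw [h2, hu1] at h4
  exact (add_left_cancel h4).symm

variable (k : Type) [Field k] (M : ℕ) (r : ℕ) [NeZero r] [Fact r.Prime] [CharP k r] [PerfectRing k r]

/-- the coefficient maps on `E k M`. -/
noncomputable def exists_fixed_vector_cf (n : ℤ) : E k M →+ k where
  toFun x := (x : LaurentSeries k).coeff n
  map_zero' := rfl
  map_add' _ _ := rfl

theorem exists_fixed_vector_cf_pow (m i : ℕ) (x : E k M) (n : ℤ) :
    exists_fixed_vector_cf k M n ((Fr k M r ^ m) ^ i • x) =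
      (exists_fixed_vector_cf k M n x) ^ ((r ^ m) ^ i) := by
  show (((Fr k M r ^ m) ^ i • x : E k M) : LaurentSeries k).coeff n = _
  rw [← pow_mul, coeff_Fr_pow_smul, pow_mul]
  rfl

theorem exists_fixed_vector_cf_smul (c : k) (x : E k M) (n : ℤ) :
    exists_fixed_vector_cf k M n (c • x) = c * exists_fixed_vector_cf k M n x := by
  show ((c • x : E k M) : LaurentSeries k).coeff n = _
  rw [Algebra.smul_def]
  show ((algebraMap k (LaurentSeries k) c) * (x : LaurentSeries k)).coeff n = _
  rw [ModularCurve.algebraMap_laurentSeries_eq_single, ← HahnSeries.C_apply, HahnSeries.C_mul_eq_smul]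
  rfl

theorem exists_fixed_vector_ext {x y : E k M}
    (h : ∀ n, exists_fixed_vector_cf k M n x = exists_fixed_vector_cf k M n y) : x = y :=
  Subtype.ext (HahnSeries.ext (funext h))

/-- **(C3)** = hypothesis `H3` of `torsion_abs`. -/
theorem exists_fixed_vector [IsAlgClosed k] (hk : ∀ a : k, ∃ n : ℕ, 0 < n ∧ a ^ (r ^ n) = a)
    (m : ℕ) (hm : 0 < m) (V : Submodule k (E k M)) (hV : V ≠ ⊥)
    (hst : ∀ x ∈ V, Fr k M r ^ m • x ∈ V) : ∃ w ∈ V, w ≠ 0 ∧ Fr k M r ^ m • w = w := by
  classical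
  obtain ⟨v, hvV, hv0⟩ := Submodule.exists_mem_ne_zero_of_ne_bot hV
  obtain ⟨a, ha, hav⟩ := exists_pow_Fr_smul k M r hk v
  have hav' : (Fr k M r ^ m) ^ a • v = v := by
    rw [← pow_mul, mul_comm, pow_mul]
    have : ∀ j : ℕ, (Fr k M r ^ a) ^ j • v = v := by
      intro j
      induction j with
      | zero => simp
      | succ j ih => rw [pow_succ, mul_smul, hav, ih]
    exact this m
  obtain ⟨n, hn⟩ : ∃ n, exists_fixed_vector_cf k M n v ≠ 0 := by
    by_contra h
    push Not at h
    exact hv0 (exists_fixed_vector_ext k M (fun n => by rw [h n, map_zero]))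
  have hfix : ∀ n', (exists_fixed_vector_cf k M n' v) ^ ((r ^ m) ^ a) =
      exists_fixed_vector_cf k M n' v := by
    intro n'
    rw [← exists_fixed_vector_cf_pow, hav']
  obtain ⟨u, hu1, hu2⟩ := exists_trace_one k r m a hm ha
  set vn := exists_fixed_vector_cf k M n v with hvn
  set c : k := u / vn with hc
  have hcfix : c ^ ((r ^ m) ^ a) = c := by
    rw [hc, div_pow, hu2, hfix n]
  set w : E k M := ∑ i ∈ Finset.range a, (Fr k M r ^ m) ^ i • (c • v) with hw
  have hstab : ∀ (i : ℕ) (x : E k M), x ∈ V → (Fr k M r ^ m) ^ i • x ∈ V := by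
    intro i
    induction i with
    | zero => intro x hx; simpa using hx
    | succ i ih =>
      intro x hx
      rw [pow_succ, mul_smul]
      exact ih _ (hst x hx)
  have hcw : ∀ n', exists_fixed_vector_cf k M n' w =
      ∑ i ∈ Finset.range a, (c * exists_fixed_vector_cf k M n' v) ^ ((r ^ m) ^ i) := by
    intro n'
    rw [hw, map_sum]
    refine Finset.sum_congr rfl fun i _ => ?_
    rw [exists_fixed_vector_cf_pow, exists_fixed_vector_cf_smul]
  refine ⟨w, V.sum_mem fun i _ => hstab i _ (V.smul_mem c hvV), ?_, ?_⟩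
  · intro h0
    have h1 := hcw n
    rw [h0, map_zero, ← hvn, hc, div_mul_cancel₀ _ hn, hu1] at h1
    exact zero_ne_one h1
  · apply exists_fixed_vector_ext
    intro n'
    have h1 := exists_fixed_vector_cf_pow k M r m 1 w n'
    rw [pow_one, pow_one] at h1
    rw [h1, hcw n', sum_pow_char_pow]
    set z := c * exists_fixed_vector_cf k M n' v with hz
    have hzfix : z ^ ((r ^ m) ^ a) = z := by
      rw [hz, mul_pow, hcfix, hfix n']
    have h4 := exists_trace_one_shift (r ^ m) a z
    rw [hzfix] at h4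
    have h5 := add_right_cancel h4
    rw [← h5]
    refine Finset.sum_congr rfl fun i _ => ?_
    rw [pow_succ, pow_mul]

end Fermat.Agent.S41.Tors
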